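import Fermat.Agent.S19.A.Desc.Main

/-!
# S19 / A / Gen : a local order from generators -- definitions

B/C give a set `S` of `I`-equivariant functions `G → A` which separates points and such that
`f (x + y) = ∑ a_i x * b_i y` with `a_i, b_i ∈ R'[S]` for `f ∈ S`.  We close `S` under the Frobenius
operator `Φ f = φ ∘ f ∘ act φ⁻¹` and take the `R'`-algebra generated.
-/

set_option autoImplicit false

namespace Fermat.Agent.S19.A

/-- `A ⊂ Qbar` is a `φ`-stable ring with `A ∩ Qbar^I = R'`, and `φ` normalises `I`. -/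
structure IntBase (I : Subgroup GQ) (φ : GQ) (R' A : Subring Qb) : Prop where
  le : R' ≤ A
  mem_of_fixed : ∀ c ∈ A, (∀ σ ∈ I, σ c = c) → c ∈ R'
  frob_mem : ∀ c ∈ A, φ c ∈ A
  fixes : ∀ a ∈ R', ∀ σ ∈ I, σ a = a
  normal : ∀ σ ∈ I, φ⁻¹ * σ * φ ∈ I

variable {G : Type}

/-- the Frobenius operator `Φ f = φ ∘ f ∘ act φ⁻¹` on functions, a ring endomorphism. -/
noncomputable def frobOp (φ : GQ) (act : GQ → G → G) : (G → Qb) →+* (G → Qb) where
  toFun f := fun x => φ (f (act φ⁻¹ x))
  map_one' := by funext x; simp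
  map_mul' f g := by funext x; simp
  map_zero' := by funext x; simp
  map_add' f g := by funext x; simp

@[simp] theorem frobOp_apply (φ : GQ) (act : GQ → G → G) (f : G → Qb) (x : G) :
    frobOp φ act f x = φ (f (act φ⁻¹ x)) := rfl

/-- the closure of `S` under `Φ`. -/
def frobClosure (φ : GQ) (act : GQ → G → G) (S : Set (G → Qb)) : Set (G → Qb) :=
  {f | ∃ k : ℕ, ∃ g ∈ S, f = (frobOp φ act)^[k] g}

/-- the `R'`-algebra generated by the `Φ`-closure of `S`. -/
noncomputable def genOrder (R' : Subring Qb) (φ : GQ) (act : GQ → G → G) (S : Set (G → Qb)) :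
    Subalgebra R' (G → Qb) :=
  Algebra.adjoin R' (frobClosure φ act S)

/-- `f (x + y)` is a finite sum of products `a_i x * b_i y` with `a_i, b_i ∈ T`. -/
def Comul1 [Add G] (T : Set (G → Qb)) (f : G → Qb) : Prop :=
  ∃ (ι : Type) (_ : Fintype ι) (a b : ι → G → Qb), (∀ i, a i ∈ T) ∧ (∀ i, b i ∈ T) ∧
    ∀ x y, f (x + y) = ∑ i, a i x * b i y

end Fermat.Agent.S19.A
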